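import Mathlib
import Fermat.Agent.S24.ARest

/-!
# EC-TORS via heights, part 1: pole orders at a place of a function field

`pole v f = max 0 (-ord_v f)` and its elementary calculus (junk-safe at `f = 0`):
* `pole_mul_le`, `pole_add_le`, `pole_pow`, `pole_algebraMap`, `pole_aeval_le`;
* the local Gauss lemma `pole_add_pole : pole u + pole w = max (pole (u + w)) (pole (u * w))`;
* `ord_aeval_monic` (order of a monic polynomial at a pole) and `eval_eq_zero_of_ord_aeval_pos`
  (a polynomial vanishing at a place vanishes at the value of its argument).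
-/

set_option autoImplicit false

noncomputable section

namespace Fermat.Agent.Lib.ECHeight

open AlgebraicCurve Polynomial Fermat.Agent.S24

variable {K F : Type*} [Field K] [Field F] [Algebra K F]

/-- The pole order of `f` at the place `v` (zero if `f` is regular at `v` or `f = 0`). -/
def pole (v : Place K F) (f : F) : ℤ := max 0 (-v.ord f)

theorem pole_nonneg (v : Place K F) (f : F) : 0 ≤ pole v f := le_max_left _ _

theorem neg_ord_le_pole (v : Place K F) (f : F) : -v.ord f ≤ pole v f := le_max_right _ _

@[simp] theorem pole_zero (v : Place K F) : pole v (0 : F) = 0 := by simp [pole]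

theorem pole_eq_zero_of_ord_nonneg (v : Place K F) {f : F} (h : 0 ≤ v.ord f) : pole v f = 0 := by
  unfold pole; omega

theorem pole_eq_neg_ord_of_neg (v : Place K F) {f : F} (h : v.ord f < 0) :
    pole v f = -v.ord f := by
  unfold pole; omega

theorem pole_algebraMap (v : Place K F) (c : K) : pole v (algebraMap K F c) = 0 := by
  rw [pole, ord_algebraMap]; simp

theorem ord_neg (v : Place K F) (f : F) : v.ord (-f) = v.ord f := by
  rcases eq_or_ne f 0 with rfl | hf
  · simp
  have : (-f) = (-1 : F) * f := by ring
  rw [this, v.ord_mul (by simp) hf]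
  have h1 : v.ord (-1 : F) = 0 := by
    have := ord_algebraMap v (-1 : K)
    simpa using this
  rw [h1, zero_add]

theorem pole_neg (v : Place K F) (f : F) : pole v (-f) = pole v f := by
  rw [pole, pole, ord_neg]

theorem pole_mul_le (v : Place K F) (f g : F) : pole v (f * g) ≤ pole v f + pole v g := by
  rcases eq_or_ne f 0 with rfl | hf
  · simpa using pole_nonneg v g
  rcases eq_or_ne g 0 with rfl | hg
  · simpa using pole_nonneg v f
  unfold pole
  rw [v.ord_mul hf hg]
  omega

theorem pole_add_le (v : Place K F) (f g : F) : pole v (f + g) ≤ max (pole v f) (pole v g) := by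
  rcases eq_or_ne f 0 with rfl | hf
  · simp
  rcases eq_or_ne g 0 with rfl | hg
  · simp
  rcases eq_or_ne (f + g) 0 with h0 | h0
  · rw [h0, pole_zero]
    exact le_max_of_le_left (pole_nonneg v f)
  have := ord_add_ge v hf hg h0
  unfold pole
  omega

theorem pole_add_le' (v : Place K F) {f g : F} {c : ℤ} (hf : pole v f ≤ c) (hg : pole v g ≤ c) :
    pole v (f + g) ≤ c :=
  (pole_add_le v f g).trans (max_le hf hg)

theorem pole_sub_le' (v : Place K F) {f g : F} {c : ℤ} (hf : pole v f ≤ c) (hg : pole v g ≤ c) :
    pole v (f - g) ≤ c := by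
  rw [sub_eq_add_neg]
  exact pole_add_le' v hf (by rwa [pole_neg])

theorem pole_pow (v : Place K F) (f : F) (n : ℕ) : pole v (f ^ n) = n * pole v f := by
  have h := v.ord_zpow f (n : ℤ)
  rw [zpow_natCast] at h
  unfold pole
  rw [h]
  have hn : (0 : ℤ) ≤ n := Int.natCast_nonneg n
  rcases le_or_gt 0 (v.ord f) with h1 | h1
  · have h2 : (0 : ℤ) ≤ n * v.ord f := mul_nonneg hn h1
    rw [max_eq_left (by omega), max_eq_left (by omega)]; ring
  · have h2 : (n : ℤ) * v.ord f ≤ 0 := mul_nonpos_of_nonneg_of_nonpos hn h1.le
    rw [max_eq_right (by omega), max_eq_right (by omega)]; ring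

theorem pole_sum_le (v : Place K F) {ι : Type*} (s : Finset ι) (g : ι → F) (c : ℤ) (hc : 0 ≤ c)
    (h : ∀ i ∈ s, pole v (g i) ≤ c) : pole v (∑ i ∈ s, g i) ≤ c := by
  classical
  induction s using Finset.induction_on with
  | empty => simpa using hc
  | insert a s ha ih =>
    rw [Finset.sum_insert ha]
    exact pole_add_le' v (h a (Finset.mem_insert_self a s))
      (ih fun i hi => h i (Finset.mem_insert_of_mem hi))

/-- The pole order of a polynomial expression is at most `deg` times that of its argument. -/
theorem pole_aeval_le (v : Place K F) (p : K[X]) (f : F) :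
    pole v (aeval f p) ≤ p.natDegree * pole v f := by
  rw [aeval_eq_sum_range]
  have hc : (0 : ℤ) ≤ p.natDegree * pole v f :=
    mul_nonneg (Int.natCast_nonneg _) (pole_nonneg v f)
  refine pole_sum_le v _ _ _ hc fun i hi => ?_
  rw [Algebra.smul_def]
  refine (pole_mul_le v _ _).trans ?_
  rw [pole_algebraMap, zero_add, pole_pow]
  have hi' : i ≤ p.natDegree := by
    have := Finset.mem_range.mp hi; omega
  exact mul_le_mul_of_nonneg_right (by exact_mod_cast hi') (pole_nonneg v f)

theorem ord_aeval_nonneg (v : Place K F) (p : K[X]) {f : F} (hf : 0 ≤ v.ord f) :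
    0 ≤ v.ord (aeval f p) := by
  have h := pole_aeval_le v p f
  rw [pole_eq_zero_of_ord_nonneg v hf, mul_zero] at h
  have := neg_ord_le_pole v (aeval f p)
  omega

/-- Ultrametric equality: a summand of strictly smaller order dominates. -/
theorem ord_add_eq_of_lt (v : Place K F) {f g : F} (hf : f ≠ 0)
    (h : g ≠ 0 → v.ord f < v.ord g) : v.ord (f + g) = v.ord f := by
  rcases eq_or_ne g 0 with rfl | hg
  · rw [add_zero]
  have h' := h hg
  have hfg : f + g ≠ 0 := by
    intro h0
    have : g = -f := by linear_combination h0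
    rw [this, ord_neg] at h'
    exact lt_irrefl _ h'
  have h1 := ord_add_ge v hf hg hfg
  have h2 := ord_sub_ge v hfg hg (by rwa [add_sub_cancel_right])
  rw [add_sub_cancel_right] at h2
  omega

/-- **Local Gauss lemma**: the pole orders of `u`, `w` add up to the pole order of the pair
`(u + w, u * w)` of coefficients of `(T - u)(T - w)`. -/
theorem pole_add_pole (v : Place K F) (u w : F) :
    pole v u + pole v w = max (pole v (u + w)) (pole v (u * w)) := by
  rcases eq_or_ne u 0 with rfl | hu
  · have := pole_nonneg v w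
    simp only [pole_zero, zero_add, zero_mul]
    omega
  rcases eq_or_ne w 0 with rfl | hw
  · have := pole_nonneg v u
    simp only [pole_zero, add_zero, mul_zero]
    omega
  rcases eq_or_ne (u + w) 0 with h0 | h0
  · have hw' : w = -u := by linear_combination h0
    have h1 : v.ord w = v.ord u := by rw [hw', ord_neg]
    rw [h0, pole_zero]
    unfold pole
    rw [v.ord_mul hu hw, h1]
    omega
  have h1 := ord_add_ge v hu hw h0
  have h2 := ord_sub_ge v h0 hw (by rwa [add_sub_cancel_right])
  rw [add_sub_cancel_right] at h2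
  have h3 := ord_sub_ge v h0 hu (by rwa [add_sub_cancel_left])
  rw [add_sub_cancel_left] at h3
  unfold pole
  rw [v.ord_mul hu hw]
  omega

/-- Pole order of a quotient `N / D` when `N` and `D` have pole order at most `c`. -/
theorem pole_div_le (v : Place K F) {N D : F} (hD : D ≠ 0) {c : ℤ} (hN : pole v N ≤ c)
    (hD' : pole v D ≤ c) : pole v (N / D) ≤ v.ord D + c := by
  have h1 := neg_ord_le_pole v D
  rcases eq_or_ne N 0 with rfl | hN0
  · rw [zero_div, pole_zero]; omega
  have h2 := neg_ord_le_pole v N
  unfold pole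
  rw [div_eq_mul_inv, v.ord_mul hN0 (inv_ne_zero hD), v.ord_inv]
  omega

/-- At a pole of `f`, a monic polynomial of degree `d` in `f` has order `d * ord f`. -/
theorem ord_aeval_monic (v : Place K F) {p : K[X]} (hp : p.Monic) {f : F} (hf : v.ord f < 0) :
    v.ord (aeval f p) = p.natDegree * v.ord f := by
  have hf0 : f ≠ 0 := by rintro rfl; simp at hf
  have hsplit : aeval f p = f ^ p.natDegree + aeval f p.eraseLead := by
    conv_lhs => rw [← p.eraseLead_add_C_mul_X_pow, hp.leadingCoeff]
    simp [add_comm]
  have hpow : v.ord (f ^ p.natDegree) = p.natDegree * v.ord f := by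
    have h := v.ord_zpow f (p.natDegree : ℤ)
    rwa [zpow_natCast] at h
  rw [hsplit, ord_add_eq_of_lt v (pow_ne_zero _ hf0), hpow]
  intro hne
  rw [hpow]
  have h1 := pole_aeval_le v p.eraseLead f
  have h2 := neg_ord_le_pole v (aeval f p.eraseLead)
  rw [pole_eq_neg_ord_of_neg v hf] at h1
  rcases Nat.eq_zero_or_pos p.natDegree with hd | hd
  · -- `p = 1`, so `eraseLead p = 0`
    exfalso
    apply hne
    have : p = 1 := by
      have := hp.natDegree_eq_zero.mp hd
      exact this
    have h1' : p.eraseLead = 0 := by
      rw [this, ← C_1, eraseLead_C]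
    rw [h1', map_zero]
  have h3 : (p.eraseLead.natDegree : ℤ) ≤ p.natDegree - 1 := by
    have := p.eraseLead_natDegree_le
    omega
  have h4 : (p.eraseLead.natDegree : ℤ) * -v.ord f ≤ (p.natDegree - 1) * -v.ord f :=
    mul_le_mul_of_nonneg_right h3 (by omega)
  nlinarith

/-- If `f` takes the value `c` at `v` and the polynomial expression `p(f)` vanishes at `v`,
then `p(c) = 0`. -/
theorem eval_eq_zero_of_ord_aeval_pos (v : Place K F) (p : K[X]) {f : F} {c : K}
    (hc : 0 < v.ord (f - algebraMap K F c)) (hp : 0 < v.ord (aeval f p)) : p.eval c = 0 := by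
  by_contra hne
  have hfc : f - algebraMap K F c ≠ 0 := by
    intro h; rw [h] at hc; simp at hc
  have hf : 0 ≤ v.ord f := by
    have h1 : f - algebraMap K F c ∈ v.toValuationSubring := mem_of_ord_nonneg v hc.le
    have h2 : f ∈ v.toValuationSubring := by
      have := v.toValuationSubring.add_mem _ _ h1 (v.algebraMap_mem' c)
      rwa [sub_add_cancel] at this
    exact ord_nonneg_of_mem v h2
  -- `p = C (p.eval c) + (X - C c) * g`
  set q : K[X] := p - C (p.eval c) with hq
  have hroot : q.IsRoot c := by simp [hq]
  have hg := (mul_divByMonic_eq_iff_isRoot (p := q) (a := c)).mpr hroot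
  set g : K[X] := q /ₘ (X - C c) with hgdef
  have hp' : p = C (p.eval c) + (X - C c) * g := by
    rw [hg, hq]; ring
  have haev : aeval f p = algebraMap K F (p.eval c) + (f - algebraMap K F c) * aeval f g := by
    conv_lhs => rw [hp']
    simp
  have hc0 : algebraMap K F (p.eval c) ≠ 0 := by
    rwa [Ne, map_eq_zero]
  have hkey : v.ord (aeval f p) = v.ord (algebraMap K F (p.eval c)) := by
    rw [haev]
    apply ord_add_eq_of_lt v hc0
    intro hne2
    have hg0 : aeval f g ≠ 0 := right_ne_zero_of_mul hne2
    rw [v.ord_mul hfc hg0, ord_algebraMap]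
    have := ord_aeval_nonneg v g hf
    omega
  rw [hkey, ord_algebraMap] at hp
  exact lt_irrefl _ hp

end Fermat.Agent.Lib.ECHeight
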