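import Mathlib
import Fermat.Agent.Lib.ECHeight.Pole

/-!
# EC-TORS via heights, part 2: the height of an element of a function field

`K` algebraically closed of characteristic zero, `F ⊇ K` finite over `K(x)` for some `x`.
`height K f = ∑_v pole v f` is the degree of the pole divisor of `f`:
* `height_eq_finrank`: `height K f = [F : K(f)]` for transcendental `f`;
* `height_of_isAlgebraic`, `isAlgebraic_of_height_eq_zero`;
* local-to-global principles `height_add_le_of_local`, `height_eq_of_local`.
-/

set_option autoImplicit false

noncomputable section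

namespace Fermat.Agent.Lib.ECHeight

open AlgebraicCurve IntermediateField Polynomial Fermat.Agent.S24

variable {K F : Type*} [Field K] [Field F] [Algebra K F]

/-- The height (degree of the pole divisor) of an element of a function field. -/
def height (K : Type*) {F : Type*} [Field K] [Field F] [Algebra K F] (f : F) : ℤ :=
  ∑ᶠ v : Place K F, pole v f

theorem height_nonneg (f : F) : 0 ≤ height K f :=
  finsum_nonneg fun v => pole_nonneg v f

theorem height_of_isAlgebraic {f : F} (hf : IsAlgebraic K f) : height K f = 0 := by
  unfold height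
  have : (fun v : Place K F => pole v f) = fun _ => 0 := by
    funext v
    exact pole_eq_zero_of_ord_nonneg v (DNeZero.ord_eq_zero_of_isAlgebraic v hf).ge
  rw [this, finsum_zero]

theorem height_algebraMap (c : K) : height K (algebraMap K F c) = 0 :=
  height_of_isAlgebraic (isAlgebraic_algebraMap c)

@[simp] theorem height_zero : height K (0 : F) = 0 :=
  height_of_isAlgebraic isAlgebraic_zero

theorem height_eq_sum (f : F) (S : Finset (Place K F))
    (hS : ∀ v : Place K F, v.ord f ≠ 0 → v ∈ S) : height K f = ∑ v ∈ S, pole v f := by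
  unfold height
  apply finsum_eq_sum_of_support_subset
  intro v hv
  apply hS
  intro h0
  exact hv (pole_eq_zero_of_ord_nonneg v h0.ge)

variable [IsAlgClosed K] [CharZero K]

theorem finite_ord_ne_zero (x : F) [FiniteDimensional K⟮x⟯ F] (f : F) :
    {v : Place K F | v.ord f ≠ 0}.Finite := by
  by_cases hfa : IsAlgebraic K f
  · have : {v : Place K F | v.ord f ≠ 0} = ∅ := by
      ext v
      simp [DNeZero.ord_eq_zero_of_isAlgebraic v hfa]
    rw [this]
    exact Set.finite_empty
  have hft : Transcendental K f := hfa
  haveI := Transfer.finiteDimensional_adjoin_of_transcendental (K := K) x hft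
  obtain ⟨hZ, -⟩ := zerosOf_finite_sum f hft
  obtain ⟨hP, -⟩ := Transfer.polesOf_finite_sum f hft
  refine (hZ.union hP).subset ?_
  intro v hv
  have hv' : v.ord f ≠ 0 := hv
  rcases lt_or_gt_of_ne hv' with h | h
  · exact Or.inr h
  · exact Or.inl h

/-- A finite set of places containing the supports of finitely many functions. -/
theorem exists_support_finset (x : F) [FiniteDimensional K⟮x⟯ F] (fs : List F) :
    ∃ S : Finset (Place K F), ∀ f ∈ fs, ∀ v : Place K F, v.ord f ≠ 0 → v ∈ S := by
  classical
  induction fs with
  | nil => exact ⟨∅, by simp⟩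
  | cons g gs ih =>
    obtain ⟨S, hS⟩ := ih
    refine ⟨S ∪ (finite_ord_ne_zero x g).toFinset, ?_⟩
    intro f hf v hv
    rcases List.mem_cons.mp hf with rfl | hf'
    · exact Finset.mem_union_right _ ((Set.Finite.mem_toFinset _).mpr hv)
    · exact Finset.mem_union_left _ (hS f hf' v hv)

theorem height_eq_finrank (x : F) [FiniteDimensional K⟮x⟯ F] {f : F} (hf : Transcendental K f) :
    height K f = (Module.finrank K⟮f⟯ F : ℤ) := by
  haveI := Transfer.finiteDimensional_adjoin_of_transcendental (K := K) x hf
  obtain ⟨hP, hsum⟩ := Transfer.polesOf_finite_sum f hf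
  rw [← hsum]
  unfold height
  rw [finsum_eq_sum_of_support_subset (s := hP.toFinset)]
  · refine Finset.sum_congr rfl fun v hv => ?_
    exact pole_eq_neg_ord_of_neg v (hP.mem_toFinset.mp hv)
  · intro v hv
    rw [Finset.mem_coe, hP.mem_toFinset]
    by_contra hneg
    exact hv (pole_eq_zero_of_ord_nonneg v (not_lt.mp hneg))

theorem height_pos (x : F) [FiniteDimensional K⟮x⟯ F] {f : F} (hf : Transcendental K f) :
    0 < height K f := by
  haveI := Transfer.finiteDimensional_adjoin_of_transcendental (K := K) x hf
  rw [height_eq_finrank x hf]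
  exact_mod_cast Module.finrank_pos

theorem isAlgebraic_of_height_eq_zero (x : F) [FiniteDimensional K⟮x⟯ F] {f : F}
    (h : height K f = 0) : IsAlgebraic K f := by
  by_contra hf
  exact (height_pos x (f := f) hf).ne' h

theorem height_eq_zero_iff (x : F) [FiniteDimensional K⟮x⟯ F] {f : F} :
    height K f = 0 ↔ IsAlgebraic K f :=
  ⟨isAlgebraic_of_height_eq_zero x, height_of_isAlgebraic⟩

/-- Local-to-global, inequality form (quasi-parallelogram law). -/
theorem height_add_le_of_local (x : F) [FiniteDimensional K⟮x⟯ F] {u w a b D : F}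
    (h : ∀ v : Place K F, pole v u + pole v w ≤ v.ord D + 2 * pole v a + 2 * pole v b) :
    height K u + height K w ≤ 2 * height K a + 2 * height K b := by
  obtain ⟨S, hS⟩ := exists_support_finset (K := K) x [u, w, a, b, D]
  rw [height_eq_sum u S (hS u (by simp)), height_eq_sum w S (hS w (by simp)),
    height_eq_sum a S (hS a (by simp)), height_eq_sum b S (hS b (by simp))]
  have hD := ARest.sum_ord_eq_zero x D S (hS D (by simp))
  calc ∑ v ∈ S, pole v u + ∑ v ∈ S, pole v w
      = ∑ v ∈ S, (pole v u + pole v w) := Finset.sum_add_distrib.symm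
    _ ≤ ∑ v ∈ S, (v.ord D + 2 * pole v a + 2 * pole v b) := Finset.sum_le_sum fun v _ => h v
    _ = 2 * ∑ v ∈ S, pole v a + 2 * ∑ v ∈ S, pole v b := by
        rw [Finset.sum_add_distrib, Finset.sum_add_distrib, hD, zero_add, Finset.mul_sum,
          Finset.mul_sum]

/-- Local-to-global, equality form (exact duplication). -/
theorem height_eq_of_local (x : F) [FiniteDimensional K⟮x⟯ F] {u a D : F}
    (h : ∀ v : Place K F, pole v u = v.ord D + 4 * pole v a) :
    height K u = 4 * height K a := by
  obtain ⟨S, hS⟩ := exists_support_finset (K := K) x [u, a, D]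
  rw [height_eq_sum u S (hS u (by simp)), height_eq_sum a S (hS a (by simp))]
  have hD := ARest.sum_ord_eq_zero x D S (hS D (by simp))
  calc ∑ v ∈ S, pole v u = ∑ v ∈ S, (v.ord D + 4 * pole v a) :=
        Finset.sum_congr rfl fun v _ => h v
    _ = 4 * ∑ v ∈ S, pole v a := by
        rw [Finset.sum_add_distrib, hD, zero_add, Finset.mul_sum]

end Fermat.Agent.Lib.ECHeight
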