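import Mathlib
import Fermat.Agent.Lib.ECHeight.Height
import Fermat.Agent.S51.ThreeTorsion

/-!
# EC-TORS via heights, part 3: the duplication map is exactly of degree four (local form)

`dupNum W = X⁴ - b₄X² - 2b₆X - b₈ = X·Ψ₂Sq - Ψ₃` is the numerator of the duplication formula
`x(2P) = dupNum(x) / Ψ₂Sq(x)`.  For an elliptic curve over an algebraically closed field the two
polynomials have no common root, hence at every place `v` of a function field and every
transcendental `f`:  `pole_v (dupNum(f)/Ψ₂Sq(f)) = ord_v Ψ₂Sq(f) + 4 pole_v f`.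
-/

set_option autoImplicit false
set_option linter.style.haveILetI false

noncomputable section

namespace Fermat.Agent.Lib.ECHeight

open AlgebraicCurve IntermediateField Polynomial Fermat.Agent.S24 WeierstrassCurve

variable {K F : Type*} [Field K] [Field F] [Algebra K F]

/-- Numerator of the duplication formula for the `x`-coordinate. -/
def dupNum (W : WeierstrassCurve K) : K[X] :=
  X ^ 4 - C W.b₄ * X ^ 2 - C (2 * W.b₆) * X - C W.b₈

theorem dupNum_eq (W : WeierstrassCurve K) : dupNum W = X * W.Ψ₂Sq - W.Ψ₃ := by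
  simp only [dupNum, Ψ₂Sq, Ψ₃, C_mul, C_ofNat]
  ring

theorem dupNum_monic (W : WeierstrassCurve K) : (dupNum W).Monic := by
  unfold dupNum
  monicity!

theorem dupNum_natDegree (W : WeierstrassCurve K) : (dupNum W).natDegree = 4 := by
  unfold dupNum
  compute_degree!

theorem dupNum_ne_zero (W : WeierstrassCurve K) : dupNum W ≠ 0 := (dupNum_monic W).ne_zero

/-- For an elliptic curve over an algebraically closed field, `Ψ₂Sq` and `dupNum` have no common
root. -/
theorem no_common_root [IsAlgClosed K] (W : WeierstrassCurve K) [W.IsElliptic] (c : K)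
    (h1 : W.Ψ₂Sq.eval c = 0) (h2 : (dupNum W).eval c = 0) : False := by
  -- a point of the curve with abscissa `c`
  obtain ⟨y, hy⟩ : ∃ y : K, W.toAffine.Equation c y := by
    let p : K[X] := X ^ 2 + C (W.a₁ * c + W.a₃) * X - C (c ^ 3 + W.a₂ * c ^ 2 + W.a₄ * c + W.a₆)
    have hdeg : p.degree ≠ 0 := by
      have : p.natDegree = 2 := by
        simp only [p]
        compute_degree!
      exact degree_ne_of_natDegree_ne (by rw [this]; norm_num)
    obtain ⟨y, hy⟩ := IsAlgClosed.exists_root p hdeg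
    refine ⟨y, ?_⟩
    rw [Affine.equation_iff]
    simp only [p, IsRoot.def, eval_sub, eval_add, eval_mul, eval_pow, eval_X, eval_C] at hy
    linear_combination hy
  have hns : W.toAffine.Nonsingular c y := Affine.equation_iff_nonsingular.mp hy
  have hY : y = W.toAffine.negY c y := by
    have h := Fermat.Agent.S51.ThreeTorsion.eval_Ψ₂Sq_eq W hy
    rw [h1] at h
    have := pow_eq_zero_iff (two_ne_zero) |>.mp h.symm
    exact sub_eq_zero.mp this
  have h3 := Fermat.Agent.S51.ThreeTorsion.eval_Ψ₃_ne_zero_of_Y_eq hns hY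
  apply h3
  rw [dupNum_eq, eval_sub, eval_mul, eval_X, h1, mul_zero, zero_sub, neg_eq_zero] at h2
  exact h2

variable [IsAlgClosed K] [CharZero K]

omit [IsAlgClosed K] [CharZero K] in
theorem aeval_ne_zero_of_transcendental {f : F} (hf : Transcendental K f) {p : K[X]}
    (hp : p ≠ 0) : aeval f p ≠ 0 := fun h => hf ⟨p, hp, h⟩

/-- **Exact duplication, local form.** -/
theorem dup_local (W : WeierstrassCurve K) [W.IsElliptic] (x : F) [FiniteDimensional K⟮x⟯ F]
    (v : Place K F) {f : F} (hf : Transcendental K f) :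
    pole v (aeval f (dupNum W) / aeval f W.Ψ₂Sq) = v.ord (aeval f W.Ψ₂Sq) + 4 * pole v f := by
  have h4 : (4 : K) ≠ 0 := by norm_num
  have hN0 : aeval f (dupNum W) ≠ 0 := aeval_ne_zero_of_transcendental hf (dupNum_ne_zero W)
  have hD0 : aeval f W.Ψ₂Sq ≠ 0 := aeval_ne_zero_of_transcendental hf (W.Ψ₂Sq_ne_zero h4)
  have hord : v.ord (aeval f (dupNum W) / aeval f W.Ψ₂Sq)
      = v.ord (aeval f (dupNum W)) - v.ord (aeval f W.Ψ₂Sq) := by
    rw [div_eq_mul_inv, v.ord_mul hN0 (inv_ne_zero hD0), v.ord_inv]; ring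
  rcases lt_or_ge (v.ord f) 0 with hneg | hpos
  · have hN := ord_aeval_monic v (dupNum_monic W) hneg
    rw [dupNum_natDegree] at hN
    have hD := pole_aeval_le v W.Ψ₂Sq f
    have hD' := neg_ord_le_pole v (aeval f W.Ψ₂Sq)
    have hdeg : (W.Ψ₂Sq.natDegree : ℤ) ≤ 3 := by exact_mod_cast W.natDegree_Ψ₂Sq_le
    rw [pole_eq_neg_ord_of_neg v hneg] at hD ⊢
    have : (W.Ψ₂Sq.natDegree : ℤ) * -v.ord f ≤ 3 * -v.ord f :=
      mul_le_mul_of_nonneg_right hdeg (by omega)
    unfold pole
    rw [hord, hN]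
    push_cast
    omega
  · have hN := ord_aeval_nonneg v (dupNum W) hpos
    have hD := ord_aeval_nonneg v W.Ψ₂Sq hpos
    rw [pole_eq_zero_of_ord_nonneg v hpos, mul_zero, add_zero]
    haveI : Algebra.IsAlgebraic K⟮f⟯ F :=
      DNeZero.isAlgebraic_adjoin_of_transcendental (K := K) x hf
    have hnot : ¬ (0 < v.ord (aeval f (dupNum W)) ∧ 0 < v.ord (aeval f W.Ψ₂Sq)) := by
      rintro ⟨hN1, hD1⟩
      rcases ARest.exists_value f hf v with h | ⟨c, hc⟩
      · omega
      · exact no_common_root W c (eval_eq_zero_of_ord_aeval_pos v _ hc hD1)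
          (eval_eq_zero_of_ord_aeval_pos v _ hc hN1)
    unfold pole
    rw [hord]
    omega

end Fermat.Agent.Lib.ECHeight
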