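import Mathlib
import Fermat.Agent.Lib.ECHeight.Dup
import Fermat.Agent.Lib.ECTors.XAdd

/-!
# EC-TORS via heights, part 4: the height of a point over a function field

`W` an elliptic curve over an algebraically closed field `K` of characteristic zero, `F ⊇ K` a
function field of one variable (finite over `K(x)`).  For `A ∈ W(F)` put
`ht W A = height K (x(A))` (`0` at the origin).  Then
* `ht_add_self`: `ht (A + A) = 4 ht A` (exact duplication);
* `ht_add_sub_le`: `ht (A + B) + ht (A - B) ≤ 2 ht A + 2 ht B`;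
* `ht_parallelogram`: equality holds;
* `ht_nsmul`: `ht (n • A) = n² ht A`.
-/

set_option autoImplicit false
set_option linter.style.haveILetI false

noncomputable section

namespace Fermat.Agent.Lib.ECHeight

open AlgebraicCurve IntermediateField Polynomial Fermat.Agent.S24 WeierstrassCurve
open Fermat.Agent.S51.ThreeTorsion (xc xc_some xc_neg eq_or_eq_neg_of_xc_eq)
open Fermat.Agent.Lib.ECTors

variable {K F : Type*} [Field K] [Field F] [Algebra K F]

/-! ### Monomial bounds -/

theorem pole_mono_le (v : Place K F) (c : K) (a b : F) {i j : ℕ} (hi : i ≤ 2) (hj : j ≤ 2) :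
    pole v (algebraMap K F c * a ^ i * b ^ j) ≤ 2 * pole v a + 2 * pole v b := by
  have h1 := pole_mul_le v (algebraMap K F c * a ^ i) (b ^ j)
  have h2 := pole_mul_le v (algebraMap K F c) (a ^ i)
  rw [pole_algebraMap, pole_pow] at h2
  rw [pole_pow] at h1
  have ha := pole_nonneg v a
  have hb := pole_nonneg v b
  have hi' : (i : ℤ) * pole v a ≤ 2 * pole v a :=
    mul_le_mul_of_nonneg_right (by exact_mod_cast hi) ha
  have hj' : (j : ℤ) * pole v b ≤ 2 * pole v b :=
    mul_le_mul_of_nonneg_right (by exact_mod_cast hj) hb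
  omega

theorem pole_D_le (v : Place K F) (a b : F) :
    pole v ((a - b) ^ 2) ≤ 2 * pole v a + 2 * pole v b := by
  have e : (a - b) ^ 2 = algebraMap K F 1 * a ^ 2 * b ^ 0 + algebraMap K F (-2) * a ^ 1 * b ^ 1
      + algebraMap K F 1 * a ^ 0 * b ^ 2 := by
    simp only [map_one, map_neg, map_ofNat]; ring
  rw [e]
  exact pole_add_le' v (pole_add_le' v (pole_mono_le v _ a b le_rfl (by norm_num))
    (pole_mono_le v _ a b (by norm_num) (by norm_num))) (pole_mono_le v _ a b (by norm_num) le_rfl)

theorem pole_NS_le (v : Place K F) (b₂ b₄ b₆ : K) (a b : F) :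
    pole v (2 * a * b * (a + b) + algebraMap K F b₂ * a * b + algebraMap K F b₄ * (a + b)
      + algebraMap K F b₆) ≤ 2 * pole v a + 2 * pole v b := by
  have e : 2 * a * b * (a + b) + algebraMap K F b₂ * a * b + algebraMap K F b₄ * (a + b)
      + algebraMap K F b₆ = algebraMap K F 2 * a ^ 2 * b ^ 1 + algebraMap K F 2 * a ^ 1 * b ^ 2
      + algebraMap K F b₂ * a ^ 1 * b ^ 1 + algebraMap K F b₄ * a ^ 1 * b ^ 0
      + algebraMap K F b₄ * a ^ 0 * b ^ 1 + algebraMap K F b₆ * a ^ 0 * b ^ 0 := by
    simp only [map_ofNat]; ring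
  rw [e]
  refine pole_add_le' v (pole_add_le' v (pole_add_le' v (pole_add_le' v (pole_add_le' v ?_ ?_) ?_)
    ?_) ?_) ?_ <;> exact pole_mono_le v _ a b (by norm_num) (by norm_num)

theorem pole_NP_le (v : Place K F) (b₄ b₆ b₈ : K) (a b : F) :
    pole v (a ^ 2 * b ^ 2 - algebraMap K F b₄ * a * b - algebraMap K F b₆ * (a + b)
      - algebraMap K F b₈) ≤ 2 * pole v a + 2 * pole v b := by
  have e : a ^ 2 * b ^ 2 - algebraMap K F b₄ * a * b - algebraMap K F b₆ * (a + b)
      - algebraMap K F b₈ = algebraMap K F 1 * a ^ 2 * b ^ 2 + algebraMap K F (-b₄) * a ^ 1 * b ^ 1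
      + algebraMap K F (-b₆) * a ^ 1 * b ^ 0 + algebraMap K F (-b₆) * a ^ 0 * b ^ 1
      + algebraMap K F (-b₈) * a ^ 0 * b ^ 0 := by
    simp only [map_one, map_neg]; ring
  rw [e]
  refine pole_add_le' v (pole_add_le' v (pole_add_le' v (pole_add_le' v ?_ ?_) ?_) ?_) ?_ <;>
    exact pole_mono_le v _ a b (by norm_num) (by norm_num)

/-- **Quasi-parallelogram law, local form.** -/
theorem add_sub_local (W : WeierstrassCurve K) (v : Place K F) {a b xp xm : F} (hab : a ≠ b)
    (h : ∀ X : F, (xp - X) * (xm - X) * (a - b) ^ 2 = XAdd.Phi (W.baseChange F).toAffine a b X) :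
    pole v xp + pole v xm ≤ v.ord ((a - b) ^ 2) + 2 * pole v a + 2 * pole v b := by
  have hD : (a - b) ^ 2 ≠ 0 := pow_ne_zero 2 (sub_ne_zero.mpr hab)
  have hb₂ : (W.baseChange F).b₂ = algebraMap K F W.b₂ := W.map_b₂ _
  have hb₄ : (W.baseChange F).b₄ = algebraMap K F W.b₄ := W.map_b₄ _
  have hb₆ : (W.baseChange F).b₆ = algebraMap K F W.b₆ := W.map_b₆ _
  have hb₈ : (W.baseChange F).b₈ = algebraMap K F W.b₈ := W.map_b₈ _
  have h0 := h 0
  have h1 := h 1
  rw [XAdd.Phi_eq_quadratic, hb₂, hb₄, hb₆, hb₈] at h0 h1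
  have hP : xp * xm = (a ^ 2 * b ^ 2 - algebraMap K F W.b₄ * a * b
      - algebraMap K F W.b₆ * (a + b) - algebraMap K F W.b₈) / (a - b) ^ 2 := by
    rw [eq_div_iff hD]; linear_combination h0
  have hS : xp + xm = (2 * a * b * (a + b) + algebraMap K F W.b₂ * a * b
      + algebraMap K F W.b₄ * (a + b) + algebraMap K F W.b₆) / (a - b) ^ 2 := by
    rw [eq_div_iff hD]; linear_combination h0 - h1
  rw [pole_add_pole, hP, hS]
  have hc := pole_D_le v a b
  have e1 := pole_div_le v hD (pole_NS_le v W.b₂ W.b₄ W.b₆ a b) hc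
  have e2 := pole_div_le v hD (pole_NP_le v W.b₄ W.b₆ W.b₈ a b) hc
  omega

/-! ### Heights of points -/

/-- The height of a point of `W` over the function field `F`. -/
def ht (W : WeierstrassCurve K) (A : (W.baseChange F).toAffine.Point) : ℤ :=
  height K (xc A)

theorem ht_nonneg (W : WeierstrassCurve K) (A : (W.baseChange F).toAffine.Point) : 0 ≤ ht W A :=
  height_nonneg _

@[simp] theorem ht_zero (W : WeierstrassCurve K) :
    ht W (0 : (W.baseChange F).toAffine.Point) = 0 := by
  show height K (0 : F) = 0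
  exact height_zero

theorem ht_neg (W : WeierstrassCurve K) (A : (W.baseChange F).toAffine.Point) :
    ht W (-A) = ht W A := by
  unfold ht; rw [xc_neg]

theorem eval_baseChange_Ψ₂Sq (W : WeierstrassCurve K) (f : F) :
    (W.baseChange F).Ψ₂Sq.eval f = aeval f W.Ψ₂Sq := by
  show (W.map (algebraMap K F)).Ψ₂Sq.eval f = _
  rw [map_Ψ₂Sq, eval_map_algebraMap]

theorem eval_baseChange_Ψ₃ (W : WeierstrassCurve K) (f : F) :
    (W.baseChange F).Ψ₃.eval f = aeval f W.Ψ₃ := by
  show (W.map (algebraMap K F)).Ψ₃.eval f = _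
  rw [map_Ψ₃, eval_map_algebraMap]

theorem isAlgebraic_aeval {f : F} (hf : IsAlgebraic K f) (p : K[X]) : IsAlgebraic K (aeval f p) := by
  have h1 : f ∈ algebraicClosure K F := mem_algebraicClosure_iff.mpr hf
  have h2 : aeval f p ∈ algebraicClosure K F := by
    have := IntermediateField.aeval_coe (algebraicClosure K F) (⟨f, h1⟩ : algebraicClosure K F) p
    simp only at this
    rw [this]
    exact SetLike.coe_mem _
  exact mem_algebraicClosure_iff.mp h2

variable [IsAlgClosed K] [CharZero K] [DecidableEq F]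

/-- **Exact duplication.** -/
theorem ht_add_self (W : WeierstrassCurve K) [W.IsElliptic] (x : F) [FiniteDimensional K⟮x⟯ F]
    (A : (W.baseChange F).toAffine.Point) : ht W (A + A) = 4 * ht W A := by
  match A with
  | .zero =>
    show ht W ((0 : (W.baseChange F).toAffine.Point) + 0) = 4 * ht W 0
    rw [add_zero, ht_zero, mul_zero]
  | .some a y h =>
    by_cases hy : y = (W.baseChange F).toAffine.negY a y
    · -- a `2`-torsion point has algebraic abscissa
      rw [Affine.Point.add_self_of_Y_eq hy, ht_zero]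
      have h1 := Fermat.Agent.S51.ThreeTorsion.eval_Ψ₂Sq_eq (W.baseChange F) h.1
      rw [sub_eq_zero.mpr hy, zero_pow two_ne_zero, eval_baseChange_Ψ₂Sq] at h1
      have h4 : (4 : K) ≠ 0 := by norm_num
      have halg : IsAlgebraic K a := by
        by_contra htr
        exact aeval_ne_zero_of_transcendental htr (W.Ψ₂Sq_ne_zero h4) h1
      show (0 : ℤ) = 4 * height K a
      rw [height_of_isAlgebraic halg, mul_zero]
    · obtain ⟨x', y', h', h2, hx'⟩ := Fermat.Agent.S51.ThreeTorsion.two_some h hy
      rw [h2]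
      show height K x' = 4 * height K a
      rw [eval_baseChange_Ψ₂Sq, eval_baseChange_Ψ₃] at hx'
      have hD0 : aeval a W.Ψ₂Sq ≠ 0 := by
        have h1 := Fermat.Agent.S51.ThreeTorsion.eval_Ψ₂Sq_eq (W.baseChange F) h.1
        rw [eval_baseChange_Ψ₂Sq] at h1
        rw [h1]
        exact pow_ne_zero 2 (sub_ne_zero.mpr hy)
      have hx'' : x' = aeval a (dupNum W) / aeval a W.Ψ₂Sq := by
        rw [eq_div_iff hD0, dupNum_eq, map_sub, map_mul, aeval_X]
        exact hx'
      by_cases halg : IsAlgebraic K a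
      · rw [height_of_isAlgebraic halg, mul_zero]
        apply height_of_isAlgebraic
        rw [hx'', div_eq_mul_inv]
        exact (isAlgebraic_aeval halg _).mul (isAlgebraic_aeval halg _).inv
      · rw [hx'']
        exact height_eq_of_local x fun v => dup_local W x v halg

/-- **Quasi-parallelogram law.** -/
theorem ht_add_sub_le (W : WeierstrassCurve K) [W.IsElliptic] (x : F) [FiniteDimensional K⟮x⟯ F]
    (A B : (W.baseChange F).toAffine.Point) :
    ht W (A + B) + ht W (A - B) ≤ 2 * ht W A + 2 * ht W B := by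
  rcases eq_or_ne A 0 with rfl | hA
  · rw [zero_add, zero_sub, ht_neg, ht_zero]; omega
  rcases eq_or_ne B 0 with rfl | hB
  · rw [add_zero, sub_zero, ht_zero]; omega
  by_cases hx : xc A = xc B
  · rcases eq_or_eq_neg_of_xc_eq hA hB hx with rfl | rfl
    · rw [sub_self, ht_zero, ht_add_self W x]; omega
    · rw [neg_add_cancel, ht_zero, sub_eq_add_neg, ht_add_self W x, ht_neg]; omega
  · match A, B with
    | .some a ya ha, .some b yb hb =>
      simp only [xc_some] at hx
      obtain ⟨xp, yp, xm, ym, hp, hm, e1, e2, hPhi⟩ := XAdd.add_sub_x ha hb hx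
      rw [e1, e2]
      show height K xp + height K xm ≤ 2 * height K a + 2 * height K b
      exact height_add_le_of_local x fun v => add_sub_local W v hx hPhi

/-- **Parallelogram law.** -/
theorem ht_parallelogram (W : WeierstrassCurve K) [W.IsElliptic] (x : F)
    [FiniteDimensional K⟮x⟯ F] (A B : (W.baseChange F).toAffine.Point) :
    ht W (A + B) + ht W (A - B) = 2 * ht W A + 2 * ht W B := by
  apply le_antisymm (ht_add_sub_le W x A B)
  have h := ht_add_sub_le W x (A + B) (A - B)
  have e1 : A + B + (A - B) = A + A := by abel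
  have e2 : A + B - (A - B) = B + B := by abel
  rw [e1, e2, ht_add_self W x, ht_add_self W x] at h
  omega

/-- **The height is a quadratic form.** -/
theorem ht_nsmul (W : WeierstrassCurve K) [W.IsElliptic] (x : F) [FiniteDimensional K⟮x⟯ F]
    (A : (W.baseChange F).toAffine.Point) (n : ℕ) : ht W (n • A) = (n : ℤ) ^ 2 * ht W A := by
  induction n using Nat.twoStepInduction with
  | zero => simp
  | one => simp
  | more n ih0 ih1 =>
    have h := ht_parallelogram W x ((n + 1) • A) A
    have e1 : (n + 1) • A + A = (n + 2) • A := by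
      rw [add_smul, add_smul, one_smul, two_smul]; abel
    have e2 : (n + 1) • A - A = n • A := by
      rw [add_smul, one_smul]; abel
    rw [e1, e2, ih0, ih1] at h
    push_cast at h ⊢
    linarith

end Fermat.Agent.Lib.ECHeight
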