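import Mathlib
import Fermat.Agent.Lib.ECHeight.Point

/-!
# The generic point of a Weierstrass curve

The function field `FF W` of a Weierstrass curve `W` over `K`, its coordinate functions
`xg W`, `yg W`, the fact that `FF W` is finite over `K(x)`, and the `K`-embedding
`evalFF` of `FF W` into an extension field attached to a point with transcendental abscissa.
-/

set_option autoImplicit false
set_option linter.style.haveILetI false

noncomputable section

namespace Fermat.Agent.Lib.ECHeight

open AlgebraicCurve IntermediateField Polynomial WeierstrassCurve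
open scoped Polynomial.Bivariate

variable {K : Type*} [Field K] (W : WeierstrassCurve K)

/-- The function field of `W` over `K`. -/
abbrev FF : Type _ := W.toAffine.FunctionField

/-- The coordinate function `x` of the function field. -/
def xg : FF W := algebraMap W.toAffine.CoordinateRing (FF W) (Affine.CoordinateRing.mk W (C X))

/-- The coordinate function `y` of the function field. -/
def yg : FF W := algebraMap W.toAffine.CoordinateRing (FF W) (Affine.CoordinateRing.mk W Y)

theorem algebraMap_FF_eq (a : K) :
    algebraMap K (FF W) a = algebraMap W.toAffine.CoordinateRing (FF W)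
      (Affine.CoordinateRing.mk W (C (C a))) := by
  rw [IsScalarTower.algebraMap_apply K W.toAffine.CoordinateRing (FF W)]
  rfl

theorem xg_eq : xg W = algebraMap K[X] (FF W) X := by
  rw [IsScalarTower.algebraMap_apply K[X] W.toAffine.CoordinateRing (FF W)]
  rfl

theorem aeval_xg (p : K[X]) : aeval (xg W) p = algebraMap K[X] (FF W) p := by
  rw [xg_eq, aeval_algebraMap_apply, aeval_X_left_apply]

theorem algebraMap_polynomial_FF_injective :
    Function.Injective (algebraMap K[X] (FF W)) := by
  rw [IsScalarTower.algebraMap_eq K[X] W.toAffine.CoordinateRing (FF W)]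
  exact (IsFractionRing.injective W.toAffine.CoordinateRing (FF W)).comp
    (FaithfulSMul.algebraMap_injective K[X] W.toAffine.CoordinateRing)

theorem transcendental_xg : Transcendental K (xg W) := by
  rw [transcendental_iff]
  intro p hp
  rw [aeval_xg] at hp
  exact algebraMap_polynomial_FF_injective W (by rw [hp, map_zero])

/-- The generic point satisfies the Weierstrass equation. -/
theorem equation_generic : (W.baseChange (FF W)).toAffine.Equation (xg W) (yg W) := by
  rw [Affine.equation_iff]
  have h : Affine.CoordinateRing.mk W (Y ^ 2 + C (C W.a₁ * X + C W.a₃) * Y -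
      C (X ^ 3 + C W.a₂ * X ^ 2 + C W.a₄ * X + C W.a₆)) = 0 :=
    AdjoinRoot.mk_self (f := W.toAffine.polynomial)
  simp only [map_sub, map_add, map_mul, map_pow] at h
  have h' := congrArg (algebraMap W.toAffine.CoordinateRing (FF W)) h
  simp only [map_sub, map_add, map_mul, map_pow, map_zero] at h'
  show yg W ^ 2 + algebraMap K (FF W) W.a₁ * xg W * yg W + algebraMap K (FF W) W.a₃ * yg W
    = xg W ^ 3 + algebraMap K (FF W) W.a₂ * xg W ^ 2 + algebraMap K (FF W) W.a₄ * xg W
      + algebraMap K (FF W) W.a₆
  simp only [algebraMap_FF_eq, xg, yg]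
  linear_combination h'

theorem aeval_xg_mem (p : K[X]) : aeval (xg W) p ∈ K⟮xg W⟯ := by
  have := IntermediateField.aeval_coe K⟮xg W⟯ (AdjoinSimple.gen K (xg W)) p
  rw [AdjoinSimple.coe_gen] at this
  rw [this]
  exact SetLike.coe_mem _

theorem isIntegral_yg : IsIntegral K⟮xg W⟯ (yg W) := by
  haveI : Module.Finite K[X] W.toAffine.CoordinateRing :=
    Module.Finite.of_basis (Affine.CoordinateRing.basis W)
  have h1 : IsIntegral K[X] (Affine.CoordinateRing.mk W Y) := Algebra.IsIntegral.isIntegral _
  have h2 : IsIntegral K[X] (yg W) :=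
    h1.map (IsScalarTower.toAlgHom K[X] W.toAffine.CoordinateRing (FF W))
  obtain ⟨p, hp, hp0⟩ := h2
  let φ : K[X] →ₐ[K] K⟮xg W⟯ := aeval (AdjoinSimple.gen K (xg W))
  have hφ : (algebraMap K⟮xg W⟯ (FF W)).comp (φ : K[X] →+* K⟮xg W⟯) = algebraMap K[X] (FF W) := by
    refine Polynomial.ringHom_ext (fun a => ?_) ?_
    · simp [φ]
      rfl
    · simp only [φ, RingHom.comp_apply, AlgHom.coe_toRingHom, aeval_X]
      rw [AdjoinSimple.algebraMap_gen, xg_eq]
  refine ⟨p.map (φ : K[X] →+* K⟮xg W⟯), hp.map _, ?_⟩
  rw [eval₂_map, hφ]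
  exact hp0

theorem mem_adjoin_yg (z : FF W) : z ∈ (K⟮xg W⟯)⟮yg W⟯ := by
  obtain ⟨a, b, hb, rfl⟩ := IsFractionRing.div_surjective (A := W.toAffine.CoordinateRing) z
  have key : ∀ c : W.toAffine.CoordinateRing,
      algebraMap W.toAffine.CoordinateRing (FF W) c ∈ (K⟮xg W⟯)⟮yg W⟯ := by
    intro c
    obtain ⟨p, q, rfl⟩ := Affine.CoordinateRing.exists_smul_basis_eq c
    have e : algebraMap W.toAffine.CoordinateRing (FF W)
        (p • (1 : W.toAffine.CoordinateRing) + q • Affine.CoordinateRing.mk W Y)
        = aeval (xg W) p + aeval (xg W) q * yg W := by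
      rw [aeval_xg, aeval_xg, map_add, Algebra.smul_def, Algebra.smul_def, mul_one, map_mul,
        ← IsScalarTower.algebraMap_apply, ← IsScalarTower.algebraMap_apply]
      rfl
    rw [e]
    have hp : aeval (xg W) p ∈ (K⟮xg W⟯)⟮yg W⟯ := by
      have := IntermediateField.algebraMap_mem ((K⟮xg W⟯)⟮yg W⟯) (⟨_, aeval_xg_mem W p⟩ : K⟮xg W⟯)
      exact this
    have hq : aeval (xg W) q ∈ (K⟮xg W⟯)⟮yg W⟯ := by
      have := IntermediateField.algebraMap_mem ((K⟮xg W⟯)⟮yg W⟯) (⟨_, aeval_xg_mem W q⟩ : K⟮xg W⟯)
      exact this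
    exact add_mem hp (mul_mem hq (mem_adjoin_simple_self _ _))
  exact div_mem (key a) (key b)

instance finiteDimensional_FF : FiniteDimensional K⟮xg W⟯ (FF W) := by
  haveI := IntermediateField.adjoin.finiteDimensional (isIntegral_yg W)
  have htop : (K⟮xg W⟯)⟮yg W⟯ = ⊤ := by
    rw [eq_top_iff]
    intro z _
    exact mem_adjoin_yg W z
  rw [htop] at this
  exact LinearEquiv.finiteDimensional
    (IntermediateField.topEquiv (F := K⟮xg W⟯) (E := FF W)).toLinearEquiv

section evalHom

variable {W} {L : Type*} [Field L] [Algebra K L]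

theorem eval₂_polynomial_eq_zero {a b : L} (h : (W.baseChange L).toAffine.Equation a b) :
    W.toAffine.polynomial.eval₂ ((aeval a : K[X] →ₐ[K] L) : K[X] →+* L) b = 0 := by
  rw [Affine.equation_iff] at h
  have h' : b ^ 2 + algebraMap K L W.a₁ * a * b + algebraMap K L W.a₃ * b
      = a ^ 3 + algebraMap K L W.a₂ * a ^ 2 + algebraMap K L W.a₄ * a + algebraMap K L W.a₆ := h
  rw [Affine.polynomial]
  simp only [eval₂_sub, eval₂_add, eval₂_mul, eval₂_pow, eval₂_X, eval₂_C, AlgHom.coe_toRingHom,
    map_add, map_mul, map_pow, aeval_X, aeval_C]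
  linear_combination h'

/-- Evaluation of the coordinate ring at a point with coordinates in an extension field. -/
def evalCoord {a b : L} (h : (W.baseChange L).toAffine.Equation a b) :
    W.toAffine.CoordinateRing →ₐ[K] L :=
  AdjoinRoot.liftAlgHom W.toAffine.polynomial (aeval a : K[X] →ₐ[K] L) b
    (eval₂_polynomial_eq_zero h)

theorem evalCoord_algebraMap {a b : L} (h : (W.baseChange L).toAffine.Equation a b) (p : K[X]) :
    evalCoord h (algebraMap K[X] W.toAffine.CoordinateRing p) = aeval a p :=
  AdjoinRoot.liftAlgHom_of _ _ _ _ p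

theorem evalCoord_mk_C {a b : L} (h : (W.baseChange L).toAffine.Equation a b) (p : K[X]) :
    evalCoord h (Affine.CoordinateRing.mk W (C p)) = aeval a p :=
  evalCoord_algebraMap h p

theorem evalCoord_mk_Y {a b : L} (h : (W.baseChange L).toAffine.Equation a b) :
    evalCoord h (Affine.CoordinateRing.mk W Y) = b :=
  AdjoinRoot.liftAlgHom_root _ _ _ _

theorem evalCoord_injective {a b : L} (h : (W.baseChange L).toAffine.Equation a b)
    (ha : Transcendental K a) : Function.Injective (evalCoord h) := by
  haveI : Module.Finite K[X] W.toAffine.CoordinateRing :=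
    Module.Finite.of_basis (Affine.CoordinateRing.basis W)
  rw [← AlgHom.coe_toRingHom, RingHom.injective_iff_ker_eq_bot]
  apply Ideal.eq_bot_of_comap_eq_bot (R := K[X])
  rw [eq_bot_iff]
  intro p hp
  rw [Ideal.mem_comap, RingHom.mem_ker, AlgHom.coe_toRingHom, evalCoord_algebraMap] at hp
  rw [Ideal.mem_bot]
  exact (transcendental_iff.mp ha) p hp

/-- The `K`-algebra embedding of the function field attached to a point with transcendental
abscissa. -/
def evalFF {a b : L} (h : (W.baseChange L).toAffine.Equation a b) (ha : Transcendental K a) :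
    FF W →ₐ[K] L :=
  IsFractionRing.liftAlgHom (g := evalCoord h) (evalCoord_injective h ha)

theorem evalFF_algebraMap {a b : L} (h : (W.baseChange L).toAffine.Equation a b)
    (ha : Transcendental K a) (c : W.toAffine.CoordinateRing) :
    evalFF h ha (algebraMap W.toAffine.CoordinateRing (FF W) c) = evalCoord h c := by
  unfold evalFF
  rw [IsFractionRing.liftAlgHom_apply, IsFractionRing.lift_algebraMap]
  rfl

theorem evalFF_xg {a b : L} (h : (W.baseChange L).toAffine.Equation a b)
    (ha : Transcendental K a) : evalFF h ha (xg W) = a := by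
  unfold xg
  rw [evalFF_algebraMap, evalCoord_mk_C, aeval_X]

theorem evalFF_yg {a b : L} (h : (W.baseChange L).toAffine.Equation a b)
    (ha : Transcendental K a) : evalFF h ha (yg W) = b := by
  unfold yg
  rw [evalFF_algebraMap, evalCoord_mk_Y]

/-- A `K`-algebra homomorphism out of the function field is determined by the images of `x`, `y`. -/
theorem algHom_FF_ext {f g : FF W →ₐ[K] L} (hx : f (xg W) = g (xg W)) (hy : f (yg W) = g (yg W)) :
    f = g := by
  have h1 : f.comp (IsScalarTower.toAlgHom K W.toAffine.CoordinateRing (FF W))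
      = g.comp (IsScalarTower.toAlgHom K W.toAffine.CoordinateRing (FF W)) := by
    apply AdjoinRoot.algHom_ext'
    · apply Polynomial.algHom_ext
      exact hx
    · exact hy
  apply AlgHom.coe_ringHom_injective
  apply IsLocalization.ringHom_ext (nonZeroDivisors W.toAffine.CoordinateRing)
  refine RingHom.ext fun c => ?_
  exact congrArg (fun φ : W.toAffine.CoordinateRing →ₐ[K] L => φ c) h1

end evalHom

end Fermat.Agent.Lib.ECHeight
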