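import Mathlib
import Fermat.Agent.Lib.ECHeight.Generic

/-!
# The generic point and its multiples; torsion points are constant

* `Pgen W`: the generic point of an elliptic curve `W`, a point over the function field.
* `ht_nsmul_Pgen`, `finrank_xc_nsmul_Pgen`: the abscissa `x_n` of `n • Pgen W` is transcendental
  and `[FF W : K(x_n)] = n ^ 2 * [FF W : K(x)]`.
* `nsmul_ne_zero_of_transcendental`: a point with transcendental abscissa is not torsion.
* `exists_map_eq_of_nsmul_eq_zero`: torsion points over any extension of the algebraically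
  closed base field `K` are defined over `K`.
-/

set_option autoImplicit false
set_option linter.style.haveILetI false
set_option linter.unusedSectionVars false

noncomputable section

namespace Fermat.Agent.Lib.ECHeight

open AlgebraicCurve IntermediateField Polynomial WeierstrassCurve
open Fermat.Agent.S51.ThreeTorsion (xc xc_some xc_neg eq_or_eq_neg_of_xc_eq)
open scoped Polynomial.Bivariate

variable {K : Type*} [Field K] (W : WeierstrassCurve K)

section generic

variable [W.IsElliptic]

theorem isElliptic_baseChange (A : Type*) [CommRing A] [Algebra K A] :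
    (W.baseChange A).IsElliptic :=
  inferInstanceAs (W.map (algebraMap K A)).IsElliptic

theorem nonsingular_generic : (W.baseChange (FF W)).toAffine.Nonsingular (xg W) (yg W) :=
  haveI := isElliptic_baseChange W (FF W)
  (Affine.equation_iff_nonsingular (W := (W.baseChange (FF W)).toAffine)).mp (equation_generic W)

/-- The generic point of `W`, a point over the function field. -/
def Pgen : (W.baseChange (FF W)).toAffine.Point := .some _ _ (nonsingular_generic W)

theorem xc_Pgen : xc (Pgen W) = xg W := rfl

variable {W} in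
theorem map_evalFF_Pgen {L : Type*} [Field L] [Algebra K L] [DecidableEq L] [DecidableEq (FF W)]
    {a b : L} (h : (W.baseChange L).toAffine.Nonsingular a b) (ha : Transcendental K a) :
    Affine.Point.map (W' := W) (evalFF h.1 ha) (Pgen W) = .some a b h := by
  unfold Pgen
  rw [Affine.Point.map_some]
  simp only [evalFF_xg, evalFF_yg]

variable {W} in
theorem xc_map {F L : Type*} [Field F] [Field L] [Algebra K F] [Algebra K L] [DecidableEq F]
    [DecidableEq L] (f : F →ₐ[K] L) (P : (W.baseChange F).toAffine.Point) :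
    xc (Affine.Point.map (W' := W) f P) = f (xc P) := by
  match P with
  | .zero => exact (map_zero f).symm
  | .some x y h => rfl

variable [IsAlgClosed K] [CharZero K] [DecidableEq (FF W)]

theorem ht_Pgen : ht W (Pgen W) = Module.finrank K⟮xg W⟯ (FF W) :=
  height_eq_finrank (xg W) (transcendental_xg W)

theorem ht_Pgen_pos : 0 < ht W (Pgen W) :=
  height_pos (xg W) (transcendental_xg W)

theorem ht_nsmul_Pgen (n : ℕ) : ht W (n • Pgen W) = (n : ℤ) ^ 2 * ht W (Pgen W) :=
  ht_nsmul W (xg W) (Pgen W) n

theorem ht_nsmul_Pgen_pos {n : ℕ} (hn : n ≠ 0) : 0 < ht W (n • Pgen W) := by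
  rw [ht_nsmul_Pgen]
  have := ht_Pgen_pos W
  positivity

theorem nsmul_Pgen_ne_zero {n : ℕ} (hn : n ≠ 0) : n • Pgen W ≠ 0 := by
  intro h
  have := ht_nsmul_Pgen_pos W hn
  rw [h, ht_zero] at this
  exact lt_irrefl _ this

theorem transcendental_xc_nsmul_Pgen {n : ℕ} (hn : n ≠ 0) :
    Transcendental K (xc (n • Pgen W)) := by
  intro halg
  have := ht_nsmul_Pgen_pos W hn
  unfold ht at this
  rw [height_of_isAlgebraic halg] at this
  exact lt_irrefl _ this

theorem finrank_xc_nsmul_Pgen {n : ℕ} (hn : n ≠ 0) :
    Module.finrank K⟮xc (n • Pgen W)⟯ (FF W) = n ^ 2 * Module.finrank K⟮xg W⟯ (FF W) := by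
  have h1 := height_eq_finrank (xg W) (transcendental_xc_nsmul_Pgen W hn)
  have h2 := ht_nsmul_Pgen W n
  unfold ht at h2
  rw [h1] at h2
  have h3 := ht_Pgen W
  unfold ht at h3
  rw [h3] at h2
  exact_mod_cast h2

end generic

/-! ### Torsion points are defined over the (algebraically closed) constant field -/

section torsion

variable [W.IsElliptic] [IsAlgClosed K] [CharZero K]
variable {L : Type*} [Field L] [Algebra K L] [DecidableEq L]

variable {W} in
/-- A point with transcendental abscissa is not a torsion point. -/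
theorem nsmul_ne_zero_of_transcendental {a b : L} (h : (W.baseChange L).toAffine.Nonsingular a b)
    (ha : Transcendental K a) {n : ℕ} (hn : n ≠ 0) :
    n • (Affine.Point.some a b h : (W.baseChange L).toAffine.Point) ≠ 0 := by
  classical
  rw [← map_evalFF_Pgen h ha, ← map_nsmul]
  intro h0
  refine nsmul_Pgen_ne_zero W hn (Affine.Point.map_injective (W' := W) (f := evalFF h.1 ha) ?_)
  rw [h0, map_zero]

omit [CharZero K] [W.IsElliptic] [DecidableEq L] in
theorem exists_algebraMap_eq_of_isAlgebraic {a : L} (ha : IsAlgebraic K a) :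
    ∃ a₀ : K, algebraMap K L a₀ = a := by
  have h : (minpoly K a).degree = 1 :=
    IsAlgClosed.degree_eq_one_of_irreducible K (minpoly.irreducible ha.isIntegral)
  exact minpoly.mem_range_of_degree_eq_one K a h

omit [CharZero K] [W.IsElliptic] [DecidableEq L] in
variable {W} in
theorem isAlgebraic_snd_of_equation {a₀ : K} {b : L}
    (h : (W.baseChange L).toAffine.Equation (algebraMap K L a₀) b) : IsAlgebraic K b := by
  rw [Affine.equation_iff] at h
  have h' : b ^ 2 + algebraMap K L W.a₁ * algebraMap K L a₀ * b + algebraMap K L W.a₃ * b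
      = algebraMap K L a₀ ^ 3 + algebraMap K L W.a₂ * algebraMap K L a₀ ^ 2
        + algebraMap K L W.a₄ * algebraMap K L a₀ + algebraMap K L W.a₆ := h
  refine ⟨X ^ 2 + C (W.a₁ * a₀ + W.a₃) * X - C (a₀ ^ 3 + W.a₂ * a₀ ^ 2 + W.a₄ * a₀ + W.a₆), ?_, ?_⟩
  · have hm : (X ^ 2 + C (W.a₁ * a₀ + W.a₃) * X
        - C (a₀ ^ 3 + W.a₂ * a₀ ^ 2 + W.a₄ * a₀ + W.a₆) : K[X]).Monic := by monicity!
    exact hm.ne_zero
  · simp only [map_sub, map_add, map_mul, map_pow, aeval_X, aeval_C]
    linear_combination h'

variable {W} in
/-- Points with algebraic abscissa are defined over the algebraically closed base. -/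
theorem exists_map_eq_of_isAlgebraic [DecidableEq K] (Q : (W.baseChange L).toAffine.Point)
    (hQ : IsAlgebraic K (xc Q)) :
    ∃ Q₀ : (W.baseChange K).toAffine.Point,
      Affine.Point.map (W' := W) (Algebra.ofId K L) Q₀ = Q := by
  match Q, hQ with
  | .zero, _ => exact ⟨0, rfl⟩
  | .some a b h, ha =>
    obtain ⟨a₀, rfl⟩ := exists_algebraMap_eq_of_isAlgebraic (ha : IsAlgebraic K a)
    obtain ⟨b₀, rfl⟩ := exists_algebraMap_eq_of_isAlgebraic (isAlgebraic_snd_of_equation h.1)
    have h₀ : (W.baseChange K).toAffine.Nonsingular a₀ b₀ :=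
      (Affine.baseChange_nonsingular (W := W) (f := Algebra.ofId K L)
        (Algebra.ofId K L).injective a₀ b₀).mp h
    exact ⟨.some a₀ b₀ h₀, rfl⟩

variable {W} in
/-- The abscissa of a torsion point is algebraic over the base. -/
theorem isAlgebraic_xc_of_nsmul_eq_zero {n : ℕ} (hn : n ≠ 0)
    (Q : (W.baseChange L).toAffine.Point) (hQ : n • Q = 0) : IsAlgebraic K (xc Q) := by
  match Q, hQ with
  | .zero, _ => exact isAlgebraic_zero
  | .some a b h, hQ =>
    by_contra htr
    exact nsmul_ne_zero_of_transcendental h htr hn hQ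

variable {W} in
/-- Torsion points over any extension field are defined over the algebraically closed base. -/
theorem exists_map_eq_of_nsmul_eq_zero [DecidableEq K] {n : ℕ} (hn : n ≠ 0)
    (Q : (W.baseChange L).toAffine.Point) (hQ : n • Q = 0) :
    ∃ Q₀ : (W.baseChange K).toAffine.Point,
      Affine.Point.map (W' := W) (Algebra.ofId K L) Q₀ = Q :=
  exists_map_eq_of_isAlgebraic Q (isAlgebraic_xc_of_nsmul_eq_zero hn Q hQ)

end torsion

end Fermat.Agent.Lib.ECHeight
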