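import Mathlib
import Fermat.Agent.Lib.ECHeight.GenericPoint

/-!
# The exact number of `n`-torsion points of an elliptic curve

For an elliptic curve `W` over an algebraically closed field `K` of characteristic zero and
`n ≠ 0`, the group of `n`-torsion points of `W` has exactly `n ^ 2` elements
(`card_nsmul_eq_zero`, `card_torsionBy`).

The proof counts the `K(x_n)`-embeddings of the function field `FF W` into its algebraic
closure, where `x_n` is the abscissa of `n • P` for the generic point `P`: these embeddings
correspond bijectively to the points `±P + T` with `T` an `n`-torsion point, and their number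
is the degree `[FF W : K(x_n)] = n ^ 2 * [FF W : K(x)]` computed by the height machinery.
-/

set_option autoImplicit false
set_option linter.style.haveILetI false
set_option linter.unusedSectionVars false

noncomputable section

namespace Fermat.Agent.Lib.ECHeight

open AlgebraicCurve IntermediateField Polynomial WeierstrassCurve
open Fermat.Agent.S51.ThreeTorsion (xc xc_some xc_neg eq_or_eq_neg_of_xc_eq)
open scoped Polynomial.Bivariate

variable {K : Type*} [Field K] (W : WeierstrassCurve K)

section count

variable [W.IsElliptic] [IsAlgClosed K] [CharZero K]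
variable [DecidableEq (FF W)] [DecidableEq (AlgebraicClosure (FF W))]

/-- The base change of points from the function field to its algebraic closure. -/
def iotaF : (W.baseChange (FF W)).toAffine.Point →+
    (W.baseChange (AlgebraicClosure (FF W))).toAffine.Point :=
  Affine.Point.map (W' := W) (IsScalarTower.toAlgHom K (FF W) (AlgebraicClosure (FF W)))

theorem iotaF_injective : Function.Injective (iotaF W) :=
  Affine.Point.map_injective (W' := W) _

/-- The generic point over the algebraic closure of the function field. -/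
def Pbar : (W.baseChange (AlgebraicClosure (FF W))).toAffine.Point := iotaF W (Pgen W)

theorem nsmul_Pbar_ne_zero {n : ℕ} (hn : n ≠ 0) : n • Pbar W ≠ 0 := by
  unfold Pbar
  rw [← map_nsmul]
  intro h
  exact nsmul_Pgen_ne_zero W hn (iotaF_injective W (by rw [h, map_zero]))

theorem xc_nsmul_Pbar (n : ℕ) :
    xc (n • Pbar W) = algebraMap (FF W) (AlgebraicClosure (FF W)) (xc (n • Pgen W)) := by
  unfold Pbar
  rw [← map_nsmul]
  exact xc_map _ _

/-- The set of points whose `n`-th multiple is `±` the `n`-th multiple of the generic point. -/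
def Sn (n : ℕ) : Set ((W.baseChange (AlgebraicClosure (FF W))).toAffine.Point) :=
  {Q | n • Q = n • Pbar W ∨ n • Q = -(n • Pbar W)}

/-- The point attached to an embedding of the function field over `K(x_n)`. -/
def embPoint (n : ℕ) (σ : FF W →ₐ[K⟮xc (n • Pgen W)⟯] AlgebraicClosure (FF W)) :
    (W.baseChange (AlgebraicClosure (FF W))).toAffine.Point :=
  Affine.Point.map (W' := W) (σ.restrictScalars K) (Pgen W)

theorem embPoint_injective (n : ℕ) : Function.Injective (embPoint W n) := by
  intro σ τ h
  unfold embPoint Pgen at h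
  rw [Affine.Point.map_some, Affine.Point.map_some, Affine.Point.some.injEq] at h
  have h' : σ.restrictScalars K = τ.restrictScalars K := algHom_FF_ext h.1 h.2
  exact AlgHom.restrictScalars_injective K h'

theorem embPoint_mem {n : ℕ} (hn : n ≠ 0)
    (σ : FF W →ₐ[K⟮xc (n • Pgen W)⟯] AlgebraicClosure (FF W)) : embPoint W n σ ∈ Sn W n := by
  have h1 : n • embPoint W n σ
      = Affine.Point.map (W' := W) (σ.restrictScalars K) (n • Pgen W) :=
    (map_nsmul _ _ _).symm
  have hx : xc (n • embPoint W n σ) = xc (n • Pbar W) := by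
    rw [h1, xc_map, xc_nsmul_Pbar]
    have := σ.commutes ⟨xc (n • Pgen W), mem_adjoin_simple_self K _⟩
    exact this
  have hne : n • embPoint W n σ ≠ 0 := by
    rw [h1]
    intro h
    refine nsmul_Pgen_ne_zero W hn (Affine.Point.map_injective (W' := W)
      (f := σ.restrictScalars K) ?_)
    rw [h, map_zero]
  exact eq_or_eq_neg_of_xc_eq hne (nsmul_Pbar_ne_zero W hn) (by rw [hx])

theorem exists_embPoint_eq {n : ℕ} (hn : n ≠ 0)
    {Q : (W.baseChange (AlgebraicClosure (FF W))).toAffine.Point} (hQ : Q ∈ Sn W n) :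
    ∃ σ, embPoint W n σ = Q := by
  classical
  have hx : xc (n • Q) = algebraMap (FF W) (AlgebraicClosure (FF W)) (xc (n • Pgen W)) := by
    rcases hQ with h | h
    · rw [h, xc_nsmul_Pbar]
    · rw [h, xc_neg, xc_nsmul_Pbar]
  have hnQ : n • Q ≠ 0 := by
    rcases hQ with h | h
    · rw [h]; exact nsmul_Pbar_ne_zero W hn
    · rw [h, neg_ne_zero]; exact nsmul_Pbar_ne_zero W hn
  have htr_n : Transcendental K (xc (n • Q)) := by
    rw [hx, transcendental_algebraMap_iff (FaithfulSMul.algebraMap_injective _ _)]
    exact transcendental_xc_nsmul_Pgen W hn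
  have htr : Transcendental K (xc Q) := by
    intro halg
    obtain ⟨Q₀, rfl⟩ := exists_map_eq_of_isAlgebraic Q halg
    rw [← map_nsmul, xc_map] at htr_n
    exact htr_n (isAlgebraic_algebraMap (R := K) (A := AlgebraicClosure (FF W)) (xc (n • Q₀)))
  match Q, hx, hnQ, htr with
  | .zero, _, hnQ, _ =>
    exact absurd (nsmul_zero n : n • (0 : (W.baseChange (AlgebraicClosure (FF W))).toAffine.Point)
      = 0) hnQ
  | .some a b h, hx, _, ha =>
    have ha' : Transcendental K a := ha
    have hmap := map_evalFF_Pgen h ha'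
    have hφx : evalFF h.1 ha' (xc (n • Pgen W))
        = algebraMap (FF W) (AlgebraicClosure (FF W)) (xc (n • Pgen W)) := by
      rw [← xc_map, map_nsmul, hmap, hx]
    have key : (evalFF h.1 ha').comp (K⟮xc (n • Pgen W)⟯.val)
        = IsScalarTower.toAlgHom K K⟮xc (n • Pgen W)⟯ (AlgebraicClosure (FF W)) := by
      apply adjoin_algHom_ext
      intro x hx'
      rw [Set.mem_singleton_iff] at hx'
      subst hx'
      exact hφx
    let σ : FF W →ₐ[K⟮xc (n • Pgen W)⟯] AlgebraicClosure (FF W) :=
      { toRingHom := (evalFF h.1 ha').toRingHom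
        commutes' := fun z => congrArg (fun f : K⟮xc (n • Pgen W)⟯ →ₐ[K] AlgebraicClosure (FF W)
          => f z) key }
    refine ⟨σ, ?_⟩
    have hσ : σ.restrictScalars K = evalFF h.1 ha' := AlgHom.ext fun _ => rfl
    unfold embPoint
    rw [hσ, hmap]

/-- The point `±P + T` attached to a sign and a torsion point. -/
def torsPoint (n : ℕ)
    (p : Bool × {T : (W.baseChange (AlgebraicClosure (FF W))).toAffine.Point // n • T = 0}) :
    (W.baseChange (AlgebraicClosure (FF W))).toAffine.Point :=
  (if p.1 then Pbar W else -Pbar W) + p.2.1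

theorem torsPoint_mem (n : ℕ)
    (p : Bool × {T : (W.baseChange (AlgebraicClosure (FF W))).toAffine.Point // n • T = 0}) :
    torsPoint W n p ∈ Sn W n := by
  obtain ⟨ε, T, hT⟩ := p
  cases ε
  · right
    show n • (-Pbar W + T) = -(n • Pbar W)
    rw [nsmul_add, hT, add_zero, neg_nsmul]
  · left
    show n • (Pbar W + T) = n • Pbar W
    rw [nsmul_add, hT, add_zero]

theorem torsPoint_injective {n : ℕ} (hn : n ≠ 0) : Function.Injective (torsPoint W n) := by
  have key : ∀ T T' : (W.baseChange (AlgebraicClosure (FF W))).toAffine.Point,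
      n • T = 0 → n • T' = 0 → Pbar W + T = -Pbar W + T' → False := by
    intro T T' hT hT' h
    have h1 : 2 • Pbar W = T' - T := by
      rw [two_nsmul]
      linear_combination (norm := abel) h
    have h2 : (2 * n) • Pbar W = 0 := by
      rw [mul_nsmul, h1, nsmul_sub, hT, hT', sub_zero]
    exact nsmul_Pbar_ne_zero W (by omega) h2
  rintro ⟨ε, T, hT⟩ ⟨ε', T', hT'⟩ h
  cases ε <;> cases ε'
  · have h' : -Pbar W + T = -Pbar W + T' := h
    have := add_left_cancel h'
    subst this
    rfl
  · have h' : -Pbar W + T = Pbar W + T' := h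
    exact (key T' T hT' hT h'.symm).elim
  · have h' : Pbar W + T = -Pbar W + T' := h
    exact (key T T' hT hT' h').elim
  · have h' : Pbar W + T = Pbar W + T' := h
    have := add_left_cancel h'
    subst this
    rfl

theorem exists_torsPoint_eq (n : ℕ)
    {Q : (W.baseChange (AlgebraicClosure (FF W))).toAffine.Point} (hQ : Q ∈ Sn W n) :
    ∃ p, torsPoint W n p = Q := by
  rcases hQ with h | h
  · refine ⟨(true, ⟨Q - Pbar W, by rw [nsmul_sub, h, sub_self]⟩), ?_⟩
    show Pbar W + (Q - Pbar W) = Q
    abel
  · refine ⟨(false, ⟨Q + Pbar W, by rw [nsmul_add, h, neg_add_cancel]⟩), ?_⟩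
    show -Pbar W + (Q + Pbar W) = Q
    abel

theorem card_Sn_eq_two_mul {n : ℕ} (hn : n ≠ 0) :
    Nat.card (Sn W n)
      = 2 * Nat.card {T : (W.baseChange (AlgebraicClosure (FF W))).toAffine.Point // n • T = 0} := by
  have e : (Bool × {T : (W.baseChange (AlgebraicClosure (FF W))).toAffine.Point // n • T = 0})
      ≃ Sn W n :=
    Equiv.ofBijective (fun p => ⟨torsPoint W n p, torsPoint_mem W n p⟩)
      ⟨fun p q h => torsPoint_injective W hn (congrArg Subtype.val h),
       fun Q => by
        obtain ⟨p, hp⟩ := exists_torsPoint_eq W n Q.2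
        exact ⟨p, Subtype.ext hp⟩⟩
  rw [← Nat.card_congr e, Nat.card_prod, Nat.card_eq_fintype_card, Fintype.card_bool]

theorem card_Sn_eq_card_emb {n : ℕ} (hn : n ≠ 0) :
    Nat.card (Sn W n)
      = Nat.card (FF W →ₐ[K⟮xc (n • Pgen W)⟯] AlgebraicClosure (FF W)) := by
  have e : (FF W →ₐ[K⟮xc (n • Pgen W)⟯] AlgebraicClosure (FF W)) ≃ Sn W n :=
    Equiv.ofBijective (fun σ => ⟨embPoint W n σ, embPoint_mem W hn σ⟩)
      ⟨fun p q h => embPoint_injective W n (congrArg Subtype.val h),
       fun Q => by
        obtain ⟨σ, hσ⟩ := exists_embPoint_eq W hn Q.2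
        exact ⟨σ, Subtype.ext hσ⟩⟩
  exact (Nat.card_congr e).symm

theorem finrank_xg_pos : 0 < Module.finrank K⟮xg W⟯ (FF W) := by
  have h1 := ht_Pgen W
  have h2 := ht_Pgen_pos W
  rw [h1] at h2
  exact_mod_cast h2

theorem card_emb {n : ℕ} (hn : n ≠ 0) :
    Nat.card (FF W →ₐ[K⟮xc (n • Pgen W)⟯] AlgebraicClosure (FF W))
      = n ^ 2 * Module.finrank K⟮xg W⟯ (FF W) := by
  have hpos : 0 < Module.finrank K⟮xc (n • Pgen W)⟯ (FF W) := by
    rw [finrank_xc_nsmul_Pgen W hn]
    have := finrank_xg_pos W
    positivity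
  haveI : FiniteDimensional K⟮xc (n • Pgen W)⟯ (FF W) := FiniteDimensional.of_finrank_pos hpos
  have h := Field.finSepDegree_eq_finrank_of_isSeparable K⟮xc (n • Pgen W)⟯ (FF W)
  rw [← finrank_xc_nsmul_Pgen W hn, ← h]
  rfl

theorem two_mul_card_torsion_closure {n : ℕ} (hn : n ≠ 0) :
    2 * Nat.card {T : (W.baseChange (AlgebraicClosure (FF W))).toAffine.Point // n • T = 0}
      = n ^ 2 * Module.finrank K⟮xg W⟯ (FF W) := by
  rw [← card_Sn_eq_two_mul W hn, card_Sn_eq_card_emb W hn, card_emb W hn]

theorem finrank_xg : Module.finrank K⟮xg W⟯ (FF W) = 2 := by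
  have h := two_mul_card_torsion_closure W one_ne_zero
  have h1 : Nat.card {T : (W.baseChange (AlgebraicClosure (FF W))).toAffine.Point // 1 • T = 0}
      = 1 := by
    rw [Nat.card_eq_one_iff_unique]
    refine ⟨⟨fun a b => Subtype.ext ?_⟩, ⟨⟨0, one_nsmul 0⟩⟩⟩
    have ha := a.2
    have hb := b.2
    rw [one_nsmul] at ha hb
    rw [ha, hb]
  rw [h1] at h
  omega

theorem card_torsion_closure {n : ℕ} (hn : n ≠ 0) :
    Nat.card {T : (W.baseChange (AlgebraicClosure (FF W))).toAffine.Point // n • T = 0}
      = n ^ 2 := by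
  have h := two_mul_card_torsion_closure W hn
  rw [finrank_xg W] at h
  omega

end count

/-! ### Transfer to the base field -/

section final

variable [W.IsElliptic] [IsAlgClosed K] [CharZero K] [DecidableEq K]

theorem card_torsion_eq_of_algebra {L : Type*} [Field L] [Algebra K L] [DecidableEq L] {n : ℕ}
    (hn : n ≠ 0) :
    Nat.card {T : (W.baseChange K).toAffine.Point // n • T = 0}
      = Nat.card {T : (W.baseChange L).toAffine.Point // n • T = 0} := by
  have hinj : Function.Injective (Affine.Point.map (W' := W) (Algebra.ofId K L)) :=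
    Affine.Point.map_injective (W' := W) _
  have e : {T : (W.baseChange K).toAffine.Point // n • T = 0}
      ≃ {T : (W.baseChange L).toAffine.Point // n • T = 0} :=
    Equiv.ofBijective
      (fun T => ⟨Affine.Point.map (W' := W) (Algebra.ofId K L) T.1, by
        rw [← map_nsmul, T.2, map_zero]⟩)
      ⟨fun p q h => Subtype.ext (hinj (congrArg Subtype.val h)),
       fun Q => by
        obtain ⟨Q₀, hQ₀⟩ := exists_map_eq_of_nsmul_eq_zero hn Q.1 Q.2
        refine ⟨⟨Q₀, hinj ?_⟩, Subtype.ext hQ₀⟩
        rw [map_nsmul, hQ₀, Q.2, map_zero]⟩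
  exact Nat.card_congr e

theorem card_torsion_baseChange_self {n : ℕ} (hn : n ≠ 0) :
    Nat.card {T : (W.baseChange K).toAffine.Point // n • T = 0} = n ^ 2 := by
  classical
  rw [card_torsion_eq_of_algebra W (L := AlgebraicClosure (FF W)) hn]
  exact card_torsion_closure W hn

omit [W.IsElliptic] [IsAlgClosed K] [CharZero K] [DecidableEq K] in
theorem baseChange_self : W.baseChange K = W := W.map_id

/-- **The `n`-torsion of an elliptic curve over an algebraically closed field of characteristic
zero has exactly `n ^ 2` elements.** -/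
theorem card_nsmul_eq_zero {n : ℕ} (hn : n ≠ 0) :
    Nat.card {T : W.toAffine.Point // n • T = 0} = n ^ 2 := by
  have h := card_torsion_baseChange_self W hn
  have hW := baseChange_self W
  exact Eq.mp (congrArg (fun V : WeierstrassCurve K =>
    Nat.card {T : V.toAffine.Point // n • T = 0} = n ^ 2) hW) h

/-- **The `n`-torsion of an elliptic curve over an algebraically closed field of characteristic
zero has exactly `n ^ 2` elements** (in terms of `Submodule.torsionBy`). -/
theorem card_torsionBy {n : ℕ} (hn : n ≠ 0) :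
    Nat.card (Submodule.torsionBy ℤ W.toAffine.Point (n : ℤ)) = n ^ 2 := by
  rw [← card_nsmul_eq_zero W hn]
  refine Nat.card_congr (Equiv.subtypeEquivRight fun T => ?_)
  rw [Submodule.mem_torsionBy_iff, natCast_zsmul]

end final

end Fermat.Agent.Lib.ECHeight
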