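import Mathlib
import Fermat.Agent.Lib.ECHeight.Count
import Fermat.Prelude.Def_FLTPrelim_GaloisRep

/-!
# Exact `n`-torsion count, in the shape used by the prelude

* `card_torsionBy_baseChange`: for an elliptic curve `E` over a commutative ring `R` and an
  algebraically closed field `K` of characteristic zero that is an `R`-algebra,
  `Nat.card (Submodule.torsionBy ℤ (E⁄K).Point n) = n ^ 2` for `n ≠ 0`.
* `finrank_torsionBy_baseChange`: for a prime `p`, the `p`-torsion is a `2`-dimensional
  `ZMod p`-vector space (for the prelude's module structure).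
* `card_torsionBy_rat`, `finrank_torsionBy_rat`: the case of curves over `ℚ` and `K = ℚ̄`.
-/

set_option autoImplicit false

noncomputable section

namespace Fermat.Agent.Lib.ECHeight

open WeierstrassCurve WeierstrassCurve.Affine

theorem isElliptic_baseChange' {R : Type*} [CommRing R] (E : WeierstrassCurve R) [E.IsElliptic]
    (A : Type*) [CommRing A] [Algebra R A] : (E.baseChange A).IsElliptic :=
  inferInstanceAs (E.map (algebraMap R A)).IsElliptic

/-- **Exact torsion count**: `#E[n](K) = n ^ 2` for `K` algebraically closed of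
characteristic zero. -/
theorem card_torsionBy_baseChange {R : Type*} [CommRing R] (E : WeierstrassCurve R)
    [E.IsElliptic] (K : Type*) [Field K] [Algebra R K] [IsAlgClosed K] [CharZero K]
    [DecidableEq K] {n : ℕ} (hn : n ≠ 0) :
    Nat.card (Submodule.torsionBy ℤ (E⁄K).Point (n : ℤ)) = n ^ 2 :=
  haveI := isElliptic_baseChange' E K
  card_torsionBy (E.baseChange K) hn

/-- The `n`-torsion is finite. -/
theorem finite_torsionBy_baseChange {R : Type*} [CommRing R] (E : WeierstrassCurve R)
    [E.IsElliptic] (K : Type*) [Field K] [Algebra R K] [IsAlgClosed K] [CharZero K]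
    [DecidableEq K] {n : ℕ} (hn : n ≠ 0) :
    Finite (Submodule.torsionBy ℤ (E⁄K).Point (n : ℤ)) :=
  Nat.finite_of_card_ne_zero (by rw [card_torsionBy_baseChange E K hn]; positivity)

/-- **The `p`-torsion is `2`-dimensional over `ZMod p`.** -/
theorem finrank_torsionBy_baseChange {R : Type*} [CommRing R] (E : WeierstrassCurve R)
    [E.IsElliptic] (K : Type*) [Field K] [Algebra R K] [IsAlgClosed K] [CharZero K]
    [DecidableEq K] (p : ℕ) [Fact p.Prime] :
    Module.finrank (ZMod p) (Submodule.torsionBy ℤ (E⁄K).Point (p : ℤ)) = 2 := by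
  have hp : p.Prime := Fact.out
  haveI := finite_torsionBy_baseChange E K hp.ne_zero
  have h := Module.natCard_eq_pow_finrank (K := ZMod p)
    (V := Submodule.torsionBy ℤ (E⁄K).Point (p : ℤ))
  rw [card_torsionBy_baseChange E K hp.ne_zero, Nat.card_zmod] at h
  exact (Nat.pow_right_injective hp.two_le h).symm

/-- The hypothesis `hcard` of `WeierstrassCurve.residualGaloisRepOf` for an elliptic curve over
`ℚ`. -/
theorem card_torsionBy_rat (W : WeierstrassCurve ℚ) [W.IsElliptic] {p : ℕ} (hp : p ≠ 0) :
    Nat.card (Submodule.torsionBy ℤ (W⁄(AlgebraicClosure ℚ)).Point p) = p ^ 2 :=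
  card_torsionBy_baseChange W (AlgebraicClosure ℚ) hp

theorem finrank_torsionBy_rat (W : WeierstrassCurve ℚ) [W.IsElliptic] (p : ℕ) [Fact p.Prime] :
    Module.finrank (ZMod p) (Submodule.torsionBy ℤ (W⁄(AlgebraicClosure ℚ)).Point p) = 2 :=
  finrank_torsionBy_baseChange W (AlgebraicClosure ℚ) p

end Fermat.Agent.Lib.ECHeight
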